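import Fermat.Agent.S37x.Desc.H28_DescVoc
import Fermat.Agent.S37x.Red.H22_Gen

/-!
# S37 [RED-DESC] (helper28): descent of the place reduction from level `M` to level `N ∣ M`

`StRedOne M A` (place reduction at the auxiliary level `M` with `[U1]` and `[SEP-ONE]`),
`StFFL N M`, `StFFk N M A` (function-field theory of `F_M / F_N` over `ℚ̄` and over `k`)
give `StRed N A`: the place reduction at level `N` is `r_N P := (r_M P̃)|_{F̄_N}` for a chosen
place `P̃` of `F_M` above `P`.
-/

set_option autoImplicit false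
set_option linter.unusedSectionVars false
set_option linter.style.haveILetI false
set_option synthInstance.maxHeartbeats 400000
set_option maxHeartbeats 1000000

open HahnSeries IntermediateField AlgebraicCurve ModularCurve

noncomputable section

namespace Fermat.Agent.S37x.Desc.H28

open Fermat.Agent.S37x.Asm Fermat.Agent.S24.RH

local notation "Lbar" => AlgebraicClosure ℚ

section Hred

variable (A : ValuationSubring Lbar) {ℓ : ℕ} (hℓ : ℓ.Prime) (hA : A.LiesOverPrime ℓ)
  {N M : ℕ} [NeZero N] [NeZero M] (hℓN : ¬ ℓ ∣ N) (hNM : N ∣ M)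

/-- the compatibility at level `M` for an integral function of level `N` -/
theorem h28_hred_int
    (r' : Place Lbar (modularFunctionFieldBar M) →
      Place (IsLocalRing.ResidueField A) (modularFunctionFieldFullC (IsLocalRing.ResidueField A) M))
    (hr : IsPlaceReductionModL A M r') (y : LaurentSeries A)
    (hy : coeffMap A.subtype y ∈ modularFunctionFieldBar N)
    (hyk : coeffMap (IsLocalRing.residue A) y
      ∈ modularFunctionFieldFullC (IsLocalRing.ResidueField A) N)
    (hne : coeffMap (IsLocalRing.residue A) y ≠ 0)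
    (D' : Divisor Lbar (modularFunctionFieldBar M))
    (hD' : ∀ w, D' w = w.ord (incL N M hNM ⟨coeffMap A.subtype y, hy⟩))
    (Q' : Place (IsLocalRing.ResidueField A)
      (modularFunctionFieldFullC (IsLocalRing.ResidueField A) M)) :
    Finsupp.mapDomain r' D' Q'
      = Q'.ord (incK N M (IsLocalRing.ResidueField A) hNM ⟨coeffMap (IsLocalRing.residue A) y, hyk⟩) :=
  hr.2 y (bar_le_bar N M hNM hy) (full_degeneracyC_le (IsLocalRing.ResidueField A) hNM hyk) hne
    D' hD' Q'

include hℓ hA hℓN in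
/-- the compatibility at level `M` for an arbitrary function of level `N`: `f = c · Y₁ / Y₂`
with `Y₁, Y₂` integral, `g := Ȳ₁ / Ȳ₂`. -/
theorem h28_hred [HasPrincipalDivisors Lbar (modularFunctionFieldBar M)]
    (r' : Place Lbar (modularFunctionFieldBar M) →
      Place (IsLocalRing.ResidueField A) (modularFunctionFieldFullC (IsLocalRing.ResidueField A) M))
    (hr : IsPlaceReductionModL A M r')
    (f : modularFunctionFieldBar N) (hf : f ≠ 0) :
    ∃ g : modularFunctionFieldFullC (IsLocalRing.ResidueField A) N, g ≠ 0 ∧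
      ∀ D' : Divisor Lbar (modularFunctionFieldBar M),
        (∀ w, D' w = w.ord (incL N M hNM f)) →
        ∀ Q', Finsupp.mapDomain r' D' Q'
          = Q'.ord (incK N M (IsLocalRing.ResidueField A) hNM g) := by
  obtain ⟨c, Y₁, Y₂, hc, h1a, h2a, h1b, h2b, h1c, h2c, h⟩ :=
    Fermat.Agent.S37x.Red.H22.exists_integral_quot A hℓ hA N hℓN f hf
  have hZ1 : (⟨coeffMap A.subtype Y₁, h1a⟩ : ↥(modularFunctionFieldBar N)) ≠ 0 := by
    intro h0
    have h0' : coeffMap A.subtype Y₁ = 0 := congrArg Subtype.val h0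
    have : Y₁ = 0 :=
      Fermat.Agent.S18x.Dict.H20.coeffMap_subtype_injective A (by rw [h0', map_zero])
    exact h1c (by rw [this, map_zero])
  have hZ2 : (⟨coeffMap A.subtype Y₂, h2a⟩ : ↥(modularFunctionFieldBar N)) ≠ 0 := by
    intro h0
    have h0' : coeffMap A.subtype Y₂ = 0 := congrArg Subtype.val h0
    have : Y₂ = 0 :=
      Fermat.Agent.S18x.Dict.H20.coeffMap_subtype_injective A (by rw [h0', map_zero])
    exact h2c (by rw [this, map_zero])
  have hg1 : (⟨coeffMap (IsLocalRing.residue A) Y₁, h1b⟩ :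
      ↥(modularFunctionFieldFullC (IsLocalRing.ResidueField A) N)) ≠ 0 :=
    fun h0 => h1c (congrArg Subtype.val h0)
  have hg2 : (⟨coeffMap (IsLocalRing.residue A) Y₂, h2b⟩ :
      ↥(modularFunctionFieldFullC (IsLocalRing.ResidueField A) N)) ≠ 0 :=
    fun h0 => h2c (congrArg Subtype.val h0)
  refine ⟨⟨coeffMap (IsLocalRing.residue A) Y₁, h1b⟩ * ⟨coeffMap (IsLocalRing.residue A) Y₂, h2b⟩⁻¹,
    mul_ne_zero hg1 (inv_ne_zero hg2), ?_⟩
  intro D' hD' Q'
  have hW1 : incL N M hNM ⟨coeffMap A.subtype Y₁, h1a⟩ ≠ 0 := by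
    rwa [Ne, map_eq_zero]
  have hW2 : incL N M hNM ⟨coeffMap A.subtype Y₂, h2a⟩ ≠ 0 := by
    rwa [Ne, map_eq_zero]
  obtain ⟨D₁, hD₁, -⟩ := HasPrincipalDivisors.exists_divisor (K := Lbar) _ hW1
  obtain ⟨D₂, hD₂, -⟩ := HasPrincipalDivisors.exists_divisor (K := Lbar) _ hW2
  have hfeq : f * (⟨coeffMap A.subtype Y₂, h2a⟩ : ↥(modularFunctionFieldBar N))
      = algebraMap Lbar ↥(modularFunctionFieldBar N) c
        * (⟨coeffMap A.subtype Y₁, h1a⟩ : ↥(modularFunctionFieldBar N)) := by
    apply Subtype.ext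
    show (f : LaurentSeries Lbar) * coeffMap A.subtype Y₂
      = algebraMap Lbar (LaurentSeries Lbar) c * coeffMap A.subtype Y₁
    rw [h, algebraMap_laurentSeries_eq_single, HahnSeries.C_apply]
  have hfeq' := congrArg (incL N M hNM) hfeq
  rw [map_mul, map_mul, AlgHom.commutes] at hfeq'
  have hfM : incL N M hNM f ≠ 0 := by rwa [Ne, map_eq_zero]
  have hc' : algebraMap Lbar ↥(modularFunctionFieldBar M) c ≠ 0 := by
    rwa [Ne, map_eq_zero]
  have hDeq : D' = D₁ - D₂ := by
    ext w
    have h1 := congrArg w.ord hfeq'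
    rw [w.ord_mul hfM hW2, w.ord_mul hc' hW1, ord_algebraMap] at h1
    rw [Finsupp.sub_apply, hD' w, hD₁ w, hD₂ w]
    omega
  have e1 := h28_hred_int A hNM r' hr Y₁ h1a h1b h1c D₁ hD₁ Q'
  have e2 := h28_hred_int A hNM r' hr Y₂ h2a h2b h2c D₂ hD₂ Q'
  have hsub : Finsupp.mapDomain r' (D₁ - D₂)
      = Finsupp.mapDomain r' D₁ - Finsupp.mapDomain r' D₂ :=
    map_sub (Finsupp.mapDomain.addMonoidHom r') D₁ D₂
  rw [hDeq, hsub, Finsupp.sub_apply, e1, e2, map_mul, map_inv₀,
    Q'.ord_mul (by rwa [Ne, map_eq_zero]) (inv_ne_zero (by rwa [Ne, map_eq_zero])), Q'.ord_inv]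
  ring

end Hred

section Types

variable (A : ValuationSubring Lbar) {N M : ℕ} [NeZero N] [NeZero M] (hNM : N ∣ M)
variable (r' : Place Lbar (modularFunctionFieldBar M) →
  Place (IsLocalRing.ResidueField A) (modularFunctionFieldFullC (IsLocalRing.ResidueField A) M))

/-- the reduction type of a place upstairs: a cusp, or a value of `j` in `A` -/
theorem h28_type (hU : StU1 A r')
    (hdeg : ∀ w : Place Lbar (modularFunctionFieldBar M), w.deg = 1)
    (w : Place Lbar (modularFunctionFieldBar M)) :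
    (JCusp A w ∧ (r' w).ord (jk A M) < 0) ∨
      ∃ (b : Lbar) (hb : b ∈ A), JAt w b ∧ JbarAt (r' w) (res A b hb) := by
  by_cases hc : JCusp A w
  · exact Or.inl ⟨hc, hU.2 w hc⟩
  · obtain ⟨b, hb, hwb⟩ := h28_exists_value A w (hdeg w) hc
    exact Or.inr ⟨b, hb, hwb, hU.1 w b hb hwb⟩

theorem h28_same_pole (hU : StU1 A r')
    (hdeg : ∀ w : Place Lbar (modularFunctionFieldBar M), w.deg = 1)
    (hintL : (incL N M hNM).toRingHom.IsIntegral)
    (w w' : Place Lbar (modularFunctionFieldBar M))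
    (hww : w.restrictAlong (incL N M hNM) hintL = w'.restrictAlong (incL N M hNM) hintL)
    (h : (r' w).ord (jk A M) < 0) : (r' w').ord (jk A M) < 0 := by
  rcases h28_type A r' hU hdeg w' with ⟨-, h'⟩ | ⟨b, hb, hwb, -⟩
  · exact h'
  · exfalso
    have h1 : JAt w b :=
      (h28_JAt_iff hNM hintL w b).mpr (hww ▸ (h28_JAt_iff hNM hintL w' b).mp hwb)
    exact h28_not_JbarAt_of_pole A (r' w) h _ (hU.1 w b hb h1)

theorem h28_same_value (hU : StU1 A r')
    (hdeg : ∀ w : Place Lbar (modularFunctionFieldBar M), w.deg = 1)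
    (hintL : (incL N M hNM).toRingHom.IsIntegral)
    (w w' : Place Lbar (modularFunctionFieldBar M))
    (hww : w.restrictAlong (incL N M hNM) hintL = w'.restrictAlong (incL N M hNM) hintL)
    (c : IsLocalRing.ResidueField A) (h : JbarAt (r' w) c) : JbarAt (r' w') c := by
  rcases h28_type A r' hU hdeg w' with ⟨hc', -⟩ | ⟨b, hb, hwb, hb'⟩
  · exfalso
    have hc : JCusp A w :=
      (h28_JCusp_iff A hNM hintL w).mpr (hww ▸ (h28_JCusp_iff A hNM hintL w').mp hc')
    exact h28_not_JbarAt_of_pole A (r' w) (hU.2 w hc) c h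
  · have h1 : JAt w b :=
      (h28_JAt_iff hNM hintL w b).mpr (hww ▸ (h28_JAt_iff hNM hintL w' b).mp hwb)
    have h2 := hU.1 w b hb h1
    rw [h28_JbarAt_unique A (r' w) h h2]
    exact hb'

end Types

section Sep

variable (A : ValuationSubring Lbar) {ℓ : ℕ} (hℓ : ℓ.Prime) (hA : A.LiesOverPrime ℓ)
  {N M : ℕ} [NeZero N] [NeZero M] (hℓN : ¬ ℓ ∣ N) (hNM : N ∣ M)
variable (r' : Place Lbar (modularFunctionFieldBar M) →
  Place (IsLocalRing.ResidueField A) (modularFunctionFieldFullC (IsLocalRing.ResidueField A) M))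
variable [HasPrincipalDivisors Lbar (modularFunctionFieldBar M)]
  [HasPrincipalDivisors (IsLocalRing.ResidueField A)
    (modularFunctionFieldFullC (IsLocalRing.ResidueField A) M)]
  [HasPrincipalDivisors (IsLocalRing.ResidueField A)
    (modularFunctionFieldFullC (IsLocalRing.ResidueField A) N)]
variable (hintL : (incL N M hNM).toRingHom.IsIntegral)
  (hintk : (incK N M (IsLocalRing.ResidueField A) hNM).toRingHom.IsIntegral)

include hℓ hA hℓN in
/-- **The separating norm.** `τ'` a "type" of places of `F̄_M` which is constant along the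
fibres of `F_M → F_N` and descends to `τ` on `F̄_N`; `f_M` a function with a simple zero at `w₀`
(of type `τ'`) all of whose other zeros and poles reduce away from `τ'`.  Then `f := N(f_M)` has
a simple zero at `P := w₀|_{F_N}`, its other zeros and poles lie under places reducing away from
`τ'`, and all places over `P` have reductions with the same restriction to `F̄_N`. -/
theorem h28_wd_of_sep (hr : IsPlaceReductionModL A M r')
    (hdegLN : ∀ v : Place Lbar (modularFunctionFieldBar N), v.deg = 1)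
    (hdegLM : ∀ w : Place Lbar (modularFunctionFieldBar M), w.deg = 1)
    (hdegkN : ∀ v : Place (IsLocalRing.ResidueField A)
      (modularFunctionFieldFullC (IsLocalRing.ResidueField A) N), v.deg = 1)
    (hdegkM : ∀ w : Place (IsLocalRing.ResidueField A)
      (modularFunctionFieldFullC (IsLocalRing.ResidueField A) M), w.deg = 1)
    (hFIL : FundamentalIdentityAlong Lbar (incL N M hNM) hintL)
    (hFIk : FundamentalIdentityAlong (IsLocalRing.ResidueField A)
      (incK N M (IsLocalRing.ResidueField A) hNM) hintk)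
    (hn : finrankAlong (IsLocalRing.ResidueField A) (incK N M (IsLocalRing.ResidueField A) hNM)
      = finrankAlong Lbar (incL N M hNM))
    (hfin : FiniteAlong Lbar (incL N M hNM))
    (hNF : NormFormulaAlong Lbar (incL N M hNM) hfin)
    (hpos : 0 < finrankAlong Lbar (incL N M hNM))
    (τ' : Place (IsLocalRing.ResidueField A)
      (modularFunctionFieldFullC (IsLocalRing.ResidueField A) M) → Prop)
    (τ : Place (IsLocalRing.ResidueField A)
      (modularFunctionFieldFullC (IsLocalRing.ResidueField A) N) → Prop)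
    (hττ : ∀ Q', τ' Q' ↔ τ (Q'.restrictAlong (incK N M (IsLocalRing.ResidueField A) hNM) hintk))
    (hsame : ∀ w w' : Place Lbar (modularFunctionFieldBar M),
      w.restrictAlong (incL N M hNM) hintL = w'.restrictAlong (incL N M hNM) hintL →
      τ' (r' w) → τ' (r' w'))
    (w₀ : Place Lbar (modularFunctionFieldBar M)) (hw₀ : τ' (r' w₀))
    (fM : modularFunctionFieldBar M) (hfM : fM ≠ 0) (hord : w₀.ord fM = 1)
    (hrest : ∀ w : Place Lbar (modularFunctionFieldBar M), w ≠ w₀ → w.ord fM ≠ 0 →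
      ¬ τ' (r' w)) :
    h28Norm (incL N M hNM) fM ≠ 0 ∧
      (w₀.restrictAlong (incL N M hNM) hintL).ord (h28Norm (incL N M hNM) fM) = 1 ∧
      (∀ v : Place Lbar (modularFunctionFieldBar N), v ≠ w₀.restrictAlong (incL N M hNM) hintL →
        v.ord (h28Norm (incL N M hNM) fM) ≠ 0 →
        ∀ w : Place Lbar (modularFunctionFieldBar M),
          w.restrictAlong (incL N M hNM) hintL = v → ¬ τ' (r' w)) ∧
      ∀ w₁ w₂ : Place Lbar (modularFunctionFieldBar M),
        w₁.restrictAlong (incL N M hNM) hintL = w₀.restrictAlong (incL N M hNM) hintL →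
        w₂.restrictAlong (incL N M hNM) hintL = w₀.restrictAlong (incL N M hNM) hintL →
        h28Rho (incK N M (IsLocalRing.ResidueField A) hNM) hintk r' w₁
          = h28Rho (incK N M (IsLocalRing.ResidueField A) hNM) hintk r' w₂ := by
  haveI : HasPrincipalDivisors Lbar (modularFunctionFieldBar N) :=
    Fermat.Agent.S18x.E.H12.h12_hasPrincipalDivisors_bar N
  have hother : ∀ w : Place Lbar (modularFunctionFieldBar M),
      w.restrictAlong (incL N M hNM) hintL = w₀.restrictAlong (incL N M hNM) hintL → w ≠ w₀ →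
      w.ord fM = 0 := by
    intro w hw hne
    by_contra h0
    exact hrest w hne h0 (hsame w₀ w hw.symm hw₀)
  have hf0 : h28Norm (incL N M hNM) fM ≠ 0 := h28_norm_ne_zero (incL N M hNM) hfin hfM
  have hfP : (w₀.restrictAlong (incL N M hNM) hintL).ord (h28Norm (incL N M hNM) fM) = 1 := by
    rw [h28_norm_ord_eq (incL N M hNM) hintL hdegLN hdegLM hfin hNF fM hfM w₀ hother, hord]
  have hc : ∀ v : Place Lbar (modularFunctionFieldBar N),
      v ≠ w₀.restrictAlong (incL N M hNM) hintL →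
      v.ord (h28Norm (incL N M hNM) fM) ≠ 0 →
      ∀ w : Place Lbar (modularFunctionFieldBar M),
        w.restrictAlong (incL N M hNM) hintL = v → ¬ τ' (r' w) := by
    intro v hv hvf w hw hτw
    obtain ⟨w', hw'f, hw'v⟩ :=
      h28_norm_exists (incL N M hNM) hintL hdegLN hdegLM hfin hNF fM hfM v hvf
    have hne : w' ≠ w₀ := by
      rintro rfl
      exact hv hw'v.symm
    exact hrest w' hne hw'f (hsame w w' (hw.trans hw'v.symm) hτw)
  refine ⟨hf0, hfP, hc, ?_⟩
  obtain ⟨g, hg, hred⟩ := h28_hred A hℓ hA hℓN hNM r' hr (h28Norm (incL N M hNM) fM) hf0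
  obtain ⟨D, hD, -⟩ := HasPrincipalDivisors.exists_divisor (K := Lbar) _ hf0
  obtain ⟨E, hE, -⟩ :=
    HasPrincipalDivisors.exists_divisor (K := IsLocalRing.ResidueField A) _ hg
  intro w₁ w₂ h₁ h₂
  refine h28_wd (incL N M hNM) hintL (incK N M (IsLocalRing.ResidueField A) hNM) hintk r'
    hdegLN hdegLM hdegkN hdegkM hFIL hFIk hn hpos (w₀.restrictAlong (incL N M hNM) hintL)
    (h28Norm (incL N M hNM) fM) g D hD hfP E hE hred τ ?_ ?_ w₁ w₂ h₁ h₂
  · intro w hw
    exact (hττ (r' w)).mp (hsame w₀ w hw.symm hw₀)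
  · intro w hw hwf hτw
    exact hc _ hw hwf w rfl ((hττ (r' w)).mpr hτw)

end Sep

section Final

variable (A : ValuationSubring Lbar) {ℓ : ℕ} (hℓ : ℓ.Prime) (hA : A.LiesOverPrime ℓ)
  (N M : ℕ) [NeZero N] [NeZero M] (hℓN : ¬ ℓ ∣ N) (hNM : N ∣ M)

include hℓ hA hℓN in
/-- **[RED-DESC]** the place reduction descends from the auxiliary level `M` to `N ∣ M`. -/
theorem h28_stRed_desc (hM : StRedOne M A) (hL : StFFL N M hNM) (hk : StFFk N M A hNM) :
    StRed N A := by
  classical
  obtain ⟨r', hr', hU, hS⟩ := hM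
  obtain ⟨hintL, hPDM, hfin, hFIL, hNF, hdegLM, hdegLN⟩ := hL
  obtain ⟨hintk, hPDkM, hPDkN, hFIk, hn, hdegkM, hrest⟩ := hk
  have hdegkN : ∀ Q : Place (IsLocalRing.ResidueField A)
      (modularFunctionFieldFullC (IsLocalRing.ResidueField A) N), Q.deg = 1 :=
    fun Q => (hrest Q).1
  have hpos : 0 < finrankAlong Lbar (incL N M hNM) := by
    letI := algebraAlong (incL N M hNM)
    haveI : Module.Finite (modularFunctionFieldBar N) (modularFunctionFieldBar M) := hfin
    exact Module.finrank_pos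
  -- well-definedness
  have hWD : ∀ w₁ w₂ : Place Lbar (modularFunctionFieldBar M),
      w₁.restrictAlong (incL N M hNM) hintL = w₂.restrictAlong (incL N M hNM) hintL →
      h28Rho (incK N M (IsLocalRing.ResidueField A) hNM) hintk r' w₁
        = h28Rho (incK N M (IsLocalRing.ResidueField A) hNM) hintk r' w₂ := by
    intro w₁ w₂ h12
    by_cases hc : JCusp A w₁
    · obtain ⟨fM, hfM, hord, hrestf⟩ := hS.2 w₁ hc
      exact (h28_wd_of_sep A hℓ hA hℓN hNM r' hintL hintk hr' hdegLN hdegLM hdegkN hdegkM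
        hFIL hFIk hn hfin hNF hpos
        (fun Q' => Q'.ord (jk A M) < 0) (fun Q => Q.ord (jk A N) < 0)
        (fun Q' => h28_ord_jk_neg_iff A hNM hintk Q')
        (fun w w' hww h => h28_same_pole A hNM r' hU hdegLM hintL w w' hww h)
        w₁ (hU.2 w₁ hc) fM hfM hord hrestf).2.2.2 w₁ w₂ rfl h12.symm
    · obtain ⟨a, haA, hwa⟩ := h28_exists_value A w₁ (hdegLM w₁) hc
      obtain ⟨fM, hfM, hord, hrestf⟩ := hS.1 w₁ hc {res A a haA}
      exact (h28_wd_of_sep A hℓ hA hℓN hNM r' hintL hintk hr' hdegLN hdegLM hdegkN hdegkM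
        hFIL hFIk hn hfin hNF hpos
        (fun Q' => JbarAt Q' (res A a haA)) (fun Q => JbarAt Q (res A a haA))
        (fun Q' => h28_JbarAt_iff A hNM hintk Q' _)
        (fun w w' hww h => h28_same_value A hNM r' hU hdegLM hintL w w' hww _ h)
        w₁ (hU.1 w₁ a haA hwa) fM hfM hord
        (fun w hw hwf => hrestf w hw hwf _ (Finset.mem_singleton_self _))).2.2.2
        w₁ w₂ rfl h12.symm
  -- the chosen lift
  have hlift : ∀ P : Place Lbar (modularFunctionFieldBar N),
      ∃ w : Place Lbar (modularFunctionFieldBar M), w.restrictAlong (incL N M hNM) hintL = P :=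
    h28_fiber_nonempty (incL N M hNM) hintL hdegLN hdegLM hFIL hpos
  choose lift hlift' using hlift
  have hr_eq : ∀ w : Place Lbar (modularFunctionFieldBar M),
      h28Rho (incK N M (IsLocalRing.ResidueField A) hNM) hintk r' w
        = h28Rho (incK N M (IsLocalRing.ResidueField A) hNM) hintk r'
            (lift (w.restrictAlong (incL N M hNM) hintL)) :=
    fun w => hWD w (lift _) (hlift' _).symm
  refine ⟨fun P => h28Rho (incK N M (IsLocalRing.ResidueField A) hNM) hintk r' (lift P),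
    ⟨fun P => ?_, ?_⟩,
    Fermat.Agent.S37x.Red.H22.h22_principalGeneratedByIntegral A hℓ hA N hℓN,
    ⟨?_, ?_⟩, ⟨?_, ?_⟩⟩
  · rw [hdegkN, hdegLN]
  · intro y hy hyk hne D hD Q
    obtain ⟨E, hE, -⟩ := HasPrincipalDivisors.exists_divisor
      (K := IsLocalRing.ResidueField A)
      (⟨coeffMap (IsLocalRing.residue A) y, hyk⟩ :
        modularFunctionFieldFullC (IsLocalRing.ResidueField A) N)
      (fun h0 => hne (congrArg Subtype.val h0))
    exact h28_red (incL N M hNM) hintL (incK N M (IsLocalRing.ResidueField A) hNM) hintk r'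
      hdegLN hdegLM hdegkN hdegkM hFIL hFIk hn hpos _ hr_eq ⟨coeffMap A.subtype y, hy⟩
      ⟨coeffMap (IsLocalRing.residue A) y, hyk⟩ D hD E hE
      (fun D' hD' Q' => h28_hred_int A hNM r' hr' y hy hyk hne D' hD' Q') Q
  · intro P a ha hPa
    have h1 : JAt (lift P) a :=
      (h28_JAt_iff hNM hintL (lift P) a).mpr (by rw [hlift']; exact hPa)
    exact (h28_JbarAt_iff A hNM hintk _ _).mp (hU.1 _ a ha h1)
  · intro P hP
    have h1 : JCusp A (lift P) :=
      (h28_JCusp_iff A hNM hintL (lift P)).mpr (by rw [hlift']; exact hP)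
    exact (h28_ord_jk_neg_iff A hNM hintk _).mp (hU.2 _ h1)
  · intro P hP T
    have hw₀ : ¬ JCusp A (lift P) := by
      intro h
      have := (h28_JCusp_iff A hNM hintL (lift P)).mp h
      rw [hlift'] at this
      exact hP this
    obtain ⟨a, haA, hwa⟩ := h28_exists_value A (lift P) (hdegLM _) hw₀
    obtain ⟨fM, hfM, hord, hrestf⟩ := hS.1 (lift P) hw₀ (insert (res A a haA) T)
    obtain ⟨hf0, hfP, hc, -⟩ := h28_wd_of_sep A hℓ hA hℓN hNM r' hintL hintk hr' hdegLN hdegLM
      hdegkN hdegkM hFIL hFIk hn hfin hNF hpos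
      (fun Q' => ∃ c ∈ insert (res A a haA) T, JbarAt Q' c)
      (fun Q => ∃ c ∈ insert (res A a haA) T, JbarAt Q c)
      (fun Q' => ⟨fun ⟨c, hc, h⟩ => ⟨c, hc, (h28_JbarAt_iff A hNM hintk Q' c).mp h⟩,
        fun ⟨c, hc, h⟩ => ⟨c, hc, (h28_JbarAt_iff A hNM hintk Q' c).mpr h⟩⟩)
      (fun w w' hww ⟨c, hc, h⟩ => ⟨c, hc, h28_same_value A hNM r' hU hdegLM hintL w w' hww c h⟩)
      (lift P) ⟨res A a haA, Finset.mem_insert_self _ _, hU.1 _ a haA hwa⟩ fM hfM hord
      (fun w hw hwf ⟨c, hc, h⟩ => hrestf w hw hwf c hc h)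
    rw [hlift'] at hfP hc
    refine ⟨h28Norm (incL N M hNM) fM, hf0, by rw [hfP]; exact one_ne_zero, ?_⟩
    intro P' hP' hP'f c hcT hJ
    exact hc P' hP' hP'f (lift P') (hlift' P')
      ⟨c, Finset.mem_insert_of_mem hcT, (h28_JbarAt_iff A hNM hintk _ c).mpr hJ⟩
  · intro P hP
    have hw₀ : JCusp A (lift P) :=
      (h28_JCusp_iff A hNM hintL (lift P)).mpr (by rw [hlift']; exact hP)
    obtain ⟨fM, hfM, hord, hrestf⟩ := hS.2 (lift P) hw₀
    obtain ⟨hf0, hfP, hc, -⟩ := h28_wd_of_sep A hℓ hA hℓN hNM r' hintL hintk hr' hdegLN hdegLM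
      hdegkN hdegkM hFIL hFIk hn hfin hNF hpos
      (fun Q' => Q'.ord (jk A M) < 0) (fun Q => Q.ord (jk A N) < 0)
      (fun Q' => h28_ord_jk_neg_iff A hNM hintk Q')
      (fun w w' hww h => h28_same_pole A hNM r' hU hdegLM hintL w w' hww h)
      (lift P) (hU.2 _ hw₀) fM hfM hord hrestf
    rw [hlift'] at hfP hc
    refine ⟨h28Norm (incL N M hNM) fM, hf0, by rw [hfP]; exact one_ne_zero, ?_⟩
    intro P' hP' hP'f hpole
    exact hc P' hP' hP'f (lift P') (hlift' P') ((h28_ord_jk_neg_iff A hNM hintk _).mpr hpole)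

end Final

end Fermat.Agent.S37x.Desc.H28
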