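import Fermat.Agent.S37x.Desc.H28_DescAbs
import Fermat.Agent.S37x.Asm.DefsDesc
import Fermat.Agent.S24.H15_Kaehler
import Fermat.Prelude.Thm_ModularCurve_coeff_jqModC_neg_one

/-!
# S37 [RED-DESC], vocabulary (helper28)

Values of `j` at places of degree one and their behaviour under restriction along
`incL : F_N → F_M`, `incK : F̄_N → F̄_M`.
-/

set_option autoImplicit false
set_option linter.unusedSectionVars false
set_option linter.style.haveILetI false
set_option synthInstance.maxHeartbeats 400000
set_option maxHeartbeats 1000000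

open HahnSeries IntermediateField AlgebraicCurve ModularCurve

noncomputable section

namespace Fermat.Agent.S37x.Desc.H28

open Fermat.Agent.S37x.Asm Fermat.Agent.S24.RH

/-! ### generic facts on places -/

section Generic

variable {K F : Type*} [Field K] [Field F] [Algebra K F]

theorem h28_residueTrivial (v : Place K F) (hdeg : v.deg = 1) : ResidueTrivial v := by
  intro u
  have h1 : Module.finrank K v.ResidueField = 1 := hdeg
  obtain ⟨c, hc⟩ := (finrank_eq_one_iff_of_nonzero' (1 : v.ResidueField) one_ne_zero).mp h1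
    (IsLocalRing.residue _ u)
  refine ⟨c, ?_⟩
  rw [← IsLocalRing.residue_eq_zero_iff, map_sub, ← hc, sub_eq_zero, Algebra.smul_def, mul_one]
  rfl

/-- a place has at most one value of `x` -/
theorem h28_value_unique (v : Place K F) {x : F} {c c' : K}
    (h : 0 < v.ord (x - algebraMap K F c)) (h' : 0 < v.ord (x - algebraMap K F c')) : c = c' :=
  eq_of_ord_sub_pos v h h'

/-- a value excludes a pole -/
theorem h28_ord_nonneg_of_value (v : Place K F) {x : F} {c : K}
    (h : 0 < v.ord (x - algebraMap K F c)) : 0 ≤ v.ord x := by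
  by_contra hneg
  rw [not_le] at hneg
  exact not_ord_sub_pos_of_ord_neg v hneg c h

end Generic

/-! ### restriction along an algebra homomorphism -/

section Along

variable {K F F' : Type*} [Field K] [Field F] [Field F'] [Algebra K F] [Algebra K F']
variable (φ : F →ₐ[K] F') (hφ : φ.toRingHom.IsIntegral)

theorem h28_ord_pos_iff (w : Place K F') (x : F) :
    0 < w.ord (φ x) ↔ 0 < (w.restrictAlong φ hφ).ord x := by
  rw [Place.ord_restrictAlong φ hφ]
  have he : (0 : ℤ) < (w.ramificationIndexAlong φ : ℤ) := by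
    exact_mod_cast h28_ram_pos φ hφ w
  constructor
  · intro h
    by_contra hcon
    rw [not_lt] at hcon
    have := mul_nonpos_of_nonneg_of_nonpos he.le hcon
    omega
  · intro h
    exact mul_pos he h

theorem h28_ord_neg_iff (w : Place K F') (x : F) :
    w.ord (φ x) < 0 ↔ (w.restrictAlong φ hφ).ord x < 0 := by
  rw [Place.ord_restrictAlong φ hφ]
  have he : (0 : ℤ) < (w.ramificationIndexAlong φ : ℤ) := by
    exact_mod_cast h28_ram_pos φ hφ w
  constructor
  · intro h
    by_contra hcon
    rw [not_lt] at hcon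
    have := mul_nonneg he.le hcon
    omega
  · intro h
    exact mul_neg_of_pos_of_neg he h

theorem h28_ord_ne_zero_iff (w : Place K F') (x : F) :
    w.ord (φ x) ≠ 0 ↔ (w.restrictAlong φ hφ).ord x ≠ 0 := by
  rw [Place.ord_restrictAlong φ hφ]
  have he : (0 : ℤ) < (w.ramificationIndexAlong φ : ℤ) := by
    exact_mod_cast h28_ram_pos φ hφ w
  constructor
  · intro h h0
    apply h
    rw [h0, mul_zero]
  · intro h
    exact mul_ne_zero he.ne' h

end Along

/-! ### the `j`-values at the two levels -/

section Levels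

variable (N M : ℕ) [NeZero N] [NeZero M] (A : ValuationSubring (AlgebraicClosure ℚ))
variable (hNM : N ∣ M)

theorem h28_incL_jL : incL N M hNM (jL N) = jL M := rfl

theorem h28_incK_jk :
    incK N M (IsLocalRing.ResidueField A) hNM (jk A N) = jk A M := rfl

theorem h28_jL_not_const :
    jL N ∉ Set.range (algebraMap (AlgebraicClosure ℚ) (modularFunctionFieldBar N)) := by
  rintro ⟨c, hc⟩
  have h1 := congrArg (fun x : modularFunctionFieldBar N =>
    (x : LaurentSeries (AlgebraicClosure ℚ)).coeff (-1)) hc
  have h2 : ((jL N : modularFunctionFieldBar N) : LaurentSeries (AlgebraicClosure ℚ))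
      = jqModC (AlgebraicClosure ℚ) := rfl
  have h3 : ((algebraMap (AlgebraicClosure ℚ) (modularFunctionFieldBar N) c :
      modularFunctionFieldBar N) : LaurentSeries (AlgebraicClosure ℚ))
      = algebraMap (AlgebraicClosure ℚ) (LaurentSeries (AlgebraicClosure ℚ)) c := rfl
  rw [h2, h3, coeff_jqModC_neg_one, algebraMap_laurentSeries_eq_single,
    HahnSeries.coeff_single_of_ne (by norm_num)] at h1
  exact zero_ne_one h1

variable {N M}

theorem h28_JAt_iff (hint : (incL N M hNM).toRingHom.IsIntegral)
    (w : Place (AlgebraicClosure ℚ) (modularFunctionFieldBar M)) (a : AlgebraicClosure ℚ) :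
    JAt w a ↔ JAt (w.restrictAlong (incL N M hNM) hint) a := by
  unfold JAt
  rw [← h28_ord_pos_iff (incL N M hNM) hint w, map_sub, h28_incL_jL, AlgHom.commutes]

theorem h28_ord_jL_neg_iff (hint : (incL N M hNM).toRingHom.IsIntegral)
    (w : Place (AlgebraicClosure ℚ) (modularFunctionFieldBar M)) :
    w.ord (jL M) < 0 ↔ (w.restrictAlong (incL N M hNM) hint).ord (jL N) < 0 := by
  rw [← h28_ord_neg_iff (incL N M hNM) hint w, h28_incL_jL]

theorem h28_JCusp_iff (hint : (incL N M hNM).toRingHom.IsIntegral)
    (w : Place (AlgebraicClosure ℚ) (modularFunctionFieldBar M)) :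
    JCusp A w ↔ JCusp A (w.restrictAlong (incL N M hNM) hint) := by
  unfold JCusp
  rw [h28_ord_jL_neg_iff hNM hint w]
  refine or_congr Iff.rfl ⟨?_, ?_⟩
  · rintro ⟨a, ha, h⟩
    exact ⟨a, ha, (h28_JAt_iff hNM hint w a).mp h⟩
  · rintro ⟨a, ha, h⟩
    exact ⟨a, ha, (h28_JAt_iff hNM hint w a).mpr h⟩

theorem h28_JbarAt_iff
    (hint : (incK N M (IsLocalRing.ResidueField A) hNM).toRingHom.IsIntegral)
    (Q' : Place (IsLocalRing.ResidueField A)
      (modularFunctionFieldFullC (IsLocalRing.ResidueField A) M))
    (c : IsLocalRing.ResidueField A) :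
    JbarAt Q' c ↔ JbarAt (Q'.restrictAlong (incK N M (IsLocalRing.ResidueField A) hNM) hint) c := by
  unfold JbarAt
  rw [← h28_ord_pos_iff (incK N M (IsLocalRing.ResidueField A) hNM) hint Q', map_sub,
    h28_incK_jk, AlgHom.commutes]

theorem h28_ord_jk_neg_iff
    (hint : (incK N M (IsLocalRing.ResidueField A) hNM).toRingHom.IsIntegral)
    (Q' : Place (IsLocalRing.ResidueField A)
      (modularFunctionFieldFullC (IsLocalRing.ResidueField A) M)) :
    Q'.ord (jk A M) < 0 ↔
      (Q'.restrictAlong (incK N M (IsLocalRing.ResidueField A) hNM) hint).ord (jk A N) < 0 := by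
  rw [← h28_ord_neg_iff (incK N M (IsLocalRing.ResidueField A) hNM) hint Q', h28_incK_jk]

/-- a place of degree one which is not a cusp has a `j`-value in `A` -/
theorem h28_exists_value (P : Place (AlgebraicClosure ℚ) (modularFunctionFieldBar N))
    (hdeg : P.deg = 1) (hP : ¬ JCusp A P) : ∃ a : AlgebraicClosure ℚ, a ∈ A ∧ JAt P a := by
  unfold JCusp at hP
  push Not at hP
  obtain ⟨h1, h2⟩ := hP
  rcases ord_pos_or_ord_neg P (h28_residueTrivial P hdeg) (h28_jL_not_const N) with h | ⟨a, ha⟩
  · omega
  · refine ⟨a, ?_, ha⟩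
    by_contra haA
    exact h2 a haA ha

/-- a `j̄`-value excludes a pole of `j̄` -/
theorem h28_not_JbarAt_of_pole
    (Q : Place (IsLocalRing.ResidueField A)
      (modularFunctionFieldFullC (IsLocalRing.ResidueField A) N))
    (h : Q.ord (jk A N) < 0) (c : IsLocalRing.ResidueField A) : ¬ JbarAt Q c :=
  not_ord_sub_pos_of_ord_neg Q h c

theorem h28_JbarAt_unique
    (Q : Place (IsLocalRing.ResidueField A)
      (modularFunctionFieldFullC (IsLocalRing.ResidueField A) N))
    {c c' : IsLocalRing.ResidueField A} (h : JbarAt Q c) (h' : JbarAt Q c') : c = c' :=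
  eq_of_ord_sub_pos Q h h'

end Levels

end Fermat.Agent.S37x.Desc.H28
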