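import Mathlib
import Fermat.Prelude.Def_AlgebraicCurve_Correspondence

/-!
# S37 [RED-DESC], abstract part (helper28)

`φ : F →ₐ[L] F'` and `ψ : G →ₐ[k] G'` two integral extensions of function fields (`F', G'` the
upper level `M`, `F, G` the lower level `N`; `L` of characteristic `0`, `k` the residue field),
all places of degree one, fundamental identities on both sides, `[F' : F] = [G' : G] > 0`, and
`r' : Place L F' → Place k G'` a map on places upstairs.

* `h28_sum_ram` : `∑_{w ∣ v} e(w ∣ v) = n`;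
* `h28_push_pull` : `ψ_* ψ^* E = n • E`;
* `h28_wd` : if `f ∈ F` has a simple zero at `P`, `(r')_* div (φ f) = div (ψ g)` and the other
  zeros and poles of `f` reduce away from the "type" `τ` of the reductions of the places over
  `P`, then all places over `P` reduce to places with the same restriction to `G`;
* `h28_red` : descent of the divisor compatibility.
-/

set_option autoImplicit false
set_option linter.unusedSectionVars false
set_option linter.style.haveILetI false
set_option synthInstance.maxHeartbeats 400000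
set_option maxHeartbeats 1000000

open AlgebraicCurve

noncomputable section

namespace Fermat.Agent.S37x.Desc.H28

section OneSide

variable {L : Type*} [Field L] {F F' : Type*} [Field F] [Field F'] [Algebra L F] [Algebra L F']
variable (φ : F →ₐ[L] F') (hφ : φ.toRingHom.IsIntegral)

include hφ in
theorem h28_ram_pos (w : Place L F') : 0 < w.ramificationIndexAlong φ := by
  letI := algebraAlong φ
  haveI := isScalarTower_along φ
  haveI := isIntegral_along φ hφ
  exact Place.ramificationIndex_pos (F := F) w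

theorem h28_inertia_eq_one (hdeg : ∀ v : Place L F, v.deg = 1) (hdeg' : ∀ w : Place L F', w.deg = 1)
    (w : Place L F') : w.inertiaDegAlong φ hφ = 1 := by
  letI := algebraAlong φ
  haveI := isScalarTower_along φ
  haveI := isIntegral_along φ hφ
  have h := w.deg_restrict_mul_inertiaDeg (F := F)
  rw [hdeg, hdeg', one_mul] at h
  exact h

variable [HasPrincipalDivisors L F']

theorem h28_sum_ram (hdeg : ∀ v : Place L F, v.deg = 1) (hdeg' : ∀ w : Place L F', w.deg = 1)
    (hFI : FundamentalIdentityAlong L φ hφ) (v : Place L F) :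
    ∑ w ∈ Place.fiberAlong φ hφ v, (w.ramificationIndexAlong φ : ℤ) = (finrankAlong L φ : ℤ) := by
  letI := algebraAlong φ
  haveI := isScalarTower_along φ
  haveI := isIntegral_along φ hφ
  haveI : FundamentalIdentity L F F' := hFI
  have h := FundamentalIdentity.sum_ramificationIndex_mul_deg (K := L) (F := F) (F' := F') v
  rw [hdeg v, Nat.cast_one, mul_one] at h
  have h2 : (finrankAlong L φ : ℤ) = (Module.finrank F F' : ℤ) := rfl
  rw [h2, ← h]
  refine Finset.sum_congr rfl fun w _ => ?_
  rw [hdeg' w, Nat.cast_one, mul_one]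
  rfl

theorem h28_fiber_nonempty (hdeg : ∀ v : Place L F, v.deg = 1)
    (hdeg' : ∀ w : Place L F', w.deg = 1)
    (hFI : FundamentalIdentityAlong L φ hφ) (hpos : 0 < finrankAlong L φ) (v : Place L F) :
    ∃ w : Place L F', w.restrictAlong φ hφ = v := by
  have h := h28_sum_ram φ hφ hdeg hdeg' hFI v
  by_contra hcon
  push Not at hcon
  have hempty : Place.fiberAlong φ hφ v = ∅ := by
    apply Finset.eq_empty_of_forall_notMem
    intro w hw
    exact hcon w (Place.mem_fiberAlong.mp hw)
  rw [hempty, Finset.sum_empty] at h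
  have : (0 : ℤ) < (finrankAlong L φ : ℤ) := by exact_mod_cast hpos
  omega

/-- `φ_* φ^* E = n • E` -/
theorem h28_push_pull (hdeg : ∀ v : Place L F, v.deg = 1) (hdeg' : ∀ w : Place L F', w.deg = 1)
    (hFI : FundamentalIdentityAlong L φ hφ) (E : Divisor L F) :
    Divisor.pushforwardAlong φ hφ (Divisor.pullbackAlong φ hφ E) = (finrankAlong L φ : ℤ) • E := by
  induction E using Finsupp.induction with
  | zero => simp
  | single_add v m E _ _ ih =>
    rw [map_add, map_add, ih, smul_add]
    congr 1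
    rw [Divisor.pullbackAlong_single, map_sum]
    have h1 : ∀ w ∈ Place.fiberAlong φ hφ v,
        Divisor.pushforwardAlong φ hφ (Finsupp.single w (m * (w.ramificationIndexAlong φ : ℤ)))
          = Finsupp.single v (m * (w.ramificationIndexAlong φ : ℤ)) := by
      intro w hw
      rw [Divisor.pushforwardAlong_single, Place.mem_fiberAlong.mp hw,
        h28_inertia_eq_one φ hφ hdeg hdeg' w, Nat.cast_one, mul_one]
    rw [Finset.sum_congr rfl h1, ← Finsupp.single_finsetSum, ← Finset.mul_sum,
      h28_sum_ram φ hφ hdeg hdeg' hFI v, Finsupp.smul_single, smul_eq_mul, mul_comm]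

/-- `φ_*` is `mapDomain` of the restriction when all places have degree one -/
theorem h28_push_eq_mapDomain (hdeg : ∀ v : Place L F, v.deg = 1)
    (hdeg' : ∀ w : Place L F', w.deg = 1) (D' : Divisor L F') :
    Divisor.pushforwardAlong φ hφ D'
      = Finsupp.mapDomain (fun w : Place L F' => w.restrictAlong φ hφ) D' := by
  induction D' using Finsupp.induction with
  | zero => simp
  | single_add w m D' _ _ ih =>
    rw [Finsupp.mapDomain_add, map_add, ih, Finsupp.mapDomain_single,
      Divisor.pushforwardAlong_single, h28_inertia_eq_one φ hφ hdeg hdeg', Nat.cast_one, mul_one]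

/-- the norm along `φ` -/
def h28Norm (f' : F') : F :=
  letI := algebraAlong φ
  Algebra.norm F f'

theorem h28_norm_ne_zero (hfin : FiniteAlong L φ) {f' : F'} (hf' : f' ≠ 0) :
    h28Norm φ f' ≠ 0 := by
  letI := algebraAlong φ
  haveI : Module.Finite F F' := hfin
  exact Algebra.norm_ne_zero_iff.mpr hf'

theorem h28_ord_norm (hdeg : ∀ v : Place L F, v.deg = 1) (hdeg' : ∀ w : Place L F', w.deg = 1)
    (hfin : FiniteAlong L φ) (hN : NormFormulaAlong L φ hfin) (f' : F') (hf' : f' ≠ 0)
    (D' : Divisor L F') (hD' : ∀ w, D' w = w.ord f') (v : Place L F) :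
    v.ord (h28Norm φ f')
      = Finsupp.mapDomain (fun w : Place L F' => w.restrictAlong φ hφ) D' v := by
  rw [← h28_push_eq_mapDomain φ hφ hdeg hdeg']
  letI := algebraAlong φ
  haveI := isScalarTower_along φ
  haveI : Module.Finite F F' := hfin
  exact (hN f' hf' D' hD' v).symm

end OneSide

section Finsupp

variable {α β : Type*}

theorem h28_mapDomain_exists (ρ : α → β) (D : α →₀ ℤ) (b : β)
    (h : Finsupp.mapDomain ρ D b ≠ 0) : ∃ a, D a ≠ 0 ∧ ρ a = b := by
  classical
  have h1 : b ∈ (Finsupp.mapDomain ρ D).support := Finsupp.mem_support_iff.mpr h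
  have h2 := Finsupp.mapDomain_support h1
  rw [Finset.mem_image] at h2
  obtain ⟨a, ha, hab⟩ := h2
  exact ⟨a, Finsupp.mem_support_iff.mp ha, hab⟩

theorem h28_mapDomain_unique (ρ : α → β) (D : α →₀ ℤ) (a₀ : α) (b : β) (h₀ : ρ a₀ = b)
    (h : ∀ a, ρ a = b → a ≠ a₀ → D a = 0) : Finsupp.mapDomain ρ D b = D a₀ := by
  classical
  conv_lhs => rw [← Finsupp.single_add_erase a₀ D]
  rw [Finsupp.mapDomain_add, Finsupp.mapDomain_single, Finsupp.add_apply, h₀,
    Finsupp.single_eq_same]
  have h2 : Finsupp.mapDomain ρ (Finsupp.erase a₀ D) b = 0 := by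
    by_contra hne
    obtain ⟨a, ha, hab⟩ := h28_mapDomain_exists ρ _ b hne
    by_cases haa : a = a₀
    · rw [haa, Finsupp.erase_same] at ha
      exact ha rfl
    · rw [Finsupp.erase_ne haa] at ha
      exact ha (h a hab haa)
  rw [h2, add_zero]

end Finsupp

section NormSep

variable {L : Type*} [Field L] {F F' : Type*} [Field F] [Field F'] [Algebra L F] [Algebra L F']
variable (φ : F →ₐ[L] F') (hφ : φ.toRingHom.IsIntegral)
variable [HasPrincipalDivisors L F']

/-- the zeros and poles of a norm lie under zeros and poles -/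
theorem h28_norm_exists (hdeg : ∀ v : Place L F, v.deg = 1) (hdeg' : ∀ w : Place L F', w.deg = 1)
    (hfin : FiniteAlong L φ) (hN : NormFormulaAlong L φ hfin) (f' : F') (hf' : f' ≠ 0)
    (v : Place L F) (hv : v.ord (h28Norm φ f') ≠ 0) :
    ∃ w : Place L F', w.ord f' ≠ 0 ∧ w.restrictAlong φ hφ = v := by
  obtain ⟨D', hD', -⟩ := HasPrincipalDivisors.exists_divisor (K := L) f' hf'
  rw [h28_ord_norm φ hφ hdeg hdeg' hfin hN f' hf' D' hD' v] at hv
  obtain ⟨w, hw, hwv⟩ := h28_mapDomain_exists _ D' v hv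
  exact ⟨w, by rwa [← hD'], hwv⟩

/-- the order of a norm at a place with a single contributing place above -/
theorem h28_norm_ord_eq (hdeg : ∀ v : Place L F, v.deg = 1)
    (hdeg' : ∀ w : Place L F', w.deg = 1)
    (hfin : FiniteAlong L φ) (hN : NormFormulaAlong L φ hfin) (f' : F') (hf' : f' ≠ 0)
    (w₀ : Place L F')
    (hother : ∀ w : Place L F', w.restrictAlong φ hφ = w₀.restrictAlong φ hφ → w ≠ w₀ →
      w.ord f' = 0) :
    (w₀.restrictAlong φ hφ).ord (h28Norm φ f') = w₀.ord f' := by
  obtain ⟨D', hD', -⟩ := HasPrincipalDivisors.exists_divisor (K := L) f' hf'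
  rw [h28_ord_norm φ hφ hdeg hdeg' hfin hN f' hf' D' hD', ← hD' w₀]
  refine h28_mapDomain_unique _ D' w₀ _ rfl ?_
  intro w hw hne
  rw [hD']
  exact hother w hw hne

end NormSep

section TwoSides

variable {L k : Type*} [Field L] [Field k]
variable {F F' G G' : Type*} [Field F] [Field F'] [Field G] [Field G']
  [Algebra L F] [Algebra L F'] [Algebra k G] [Algebra k G']
variable (φ : F →ₐ[L] F') (hφ : φ.toRingHom.IsIntegral)
variable (ψ : G →ₐ[k] G') (hψ : ψ.toRingHom.IsIntegral)
variable (r' : Place L F' → Place k G')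

/-- the reduction upstairs followed by the restriction downstairs -/
def h28Rho (w : Place L F') : Place k G := (r' w).restrictAlong ψ hψ

theorem h28_push_mapDomain (hdegG : ∀ v : Place k G, v.deg = 1)
    (hdegG' : ∀ w : Place k G', w.deg = 1) (D' : Divisor L F') :
    Divisor.pushforwardAlong ψ hψ (Finsupp.mapDomain r' D')
      = Finsupp.mapDomain (h28Rho ψ hψ r') D' := by
  induction D' using Finsupp.induction with
  | zero => simp
  | single_add w m D' _ _ ih =>
    rw [Finsupp.mapDomain_add, Finsupp.mapDomain_add, map_add, ih, Finsupp.mapDomain_single,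
      Finsupp.mapDomain_single, Divisor.pushforwardAlong_single,
      h28_inertia_eq_one ψ hψ hdegG hdegG', Nat.cast_one, mul_one]
    rfl

variable [HasPrincipalDivisors L F'] [HasPrincipalDivisors k G']

theorem h28_rho_pullback_single (v : Place L F) (m : ℤ) :
    Finsupp.mapDomain (h28Rho ψ hψ r') (Divisor.pullbackAlong φ hφ (Finsupp.single v m))
      = ∑ w ∈ Place.fiberAlong φ hφ v,
          Finsupp.single (h28Rho ψ hψ r' w) (m * (w.ramificationIndexAlong φ : ℤ)) := by
  rw [Divisor.pullbackAlong_single, Finsupp.mapDomain_finsetSum]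
  refine Finset.sum_congr rfl fun w _ => ?_
  rw [Finsupp.mapDomain_single]

open Classical in
theorem h28_rho_pullback_single_apply (v : Place L F) (m : ℤ) (Q : Place k G) :
    Finsupp.mapDomain (h28Rho ψ hψ r') (Divisor.pullbackAlong φ hφ (Finsupp.single v m)) Q
      = ∑ w ∈ Place.fiberAlong φ hφ v,
          if h28Rho ψ hψ r' w = Q then m * (w.ramificationIndexAlong φ : ℤ) else 0 := by
  rw [h28_rho_pullback_single, Finsupp.finsetSum_apply]
  refine Finset.sum_congr rfl fun w _ => ?_
  rw [Finsupp.single_apply]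

/-- support of `ρ_* φ^* D`. -/
theorem h28_exists_of_rho_pullback_ne_zero (D : Divisor L F) (Q : Place k G)
    (h : Finsupp.mapDomain (h28Rho ψ hψ r') (Divisor.pullbackAlong φ hφ D) Q ≠ 0) :
    ∃ w : Place L F', D (w.restrictAlong φ hφ) ≠ 0 ∧ h28Rho ψ hψ r' w = Q := by
  classical
  have h1 : Q ∈ (Finsupp.mapDomain (h28Rho ψ hψ r') (Divisor.pullbackAlong φ hφ D)).support :=
    Finsupp.mem_support_iff.mpr h
  have h2 := Finsupp.mapDomain_support h1
  rw [Finset.mem_image] at h2
  obtain ⟨w, hw, hwQ⟩ := h2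
  refine ⟨w, ?_, hwQ⟩
  rw [Finsupp.mem_support_iff, Divisor.pullbackAlong_apply] at hw
  intro h0
  apply hw
  rw [h0, mul_zero]

/-- the divisor `φ^* D` of `φ f` -/
theorem h28_pullback_eq_ord (D : Divisor L F) (f : F) (hD : ∀ v, D v = v.ord f)
    (w : Place L F') : Divisor.pullbackAlong φ hφ D w = w.ord (φ f) := by
  rw [Divisor.pullbackAlong_apply, hD, Place.ord_restrictAlong φ hφ]

/-- `(r')_* φ^* div f = ψ^* div g`, pushed down: `ρ_* φ^* D = n̄ • E`. -/
theorem h28_rho_pullback_eq (hdegG : ∀ v : Place k G, v.deg = 1)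
    (hdegG' : ∀ w : Place k G', w.deg = 1) (hFIk : FundamentalIdentityAlong k ψ hψ)
    (f : F) (g : G) (D : Divisor L F) (hD : ∀ v, D v = v.ord f)
    (E : Divisor k G) (hE : ∀ Q, E Q = Q.ord g)
    (hred : ∀ D' : Divisor L F', (∀ w, D' w = w.ord (φ f)) →
      ∀ Q', Finsupp.mapDomain r' D' Q' = Q'.ord (ψ g)) :
    Finsupp.mapDomain (h28Rho ψ hψ r') (Divisor.pullbackAlong φ hφ D)
      = (finrankAlong k ψ : ℤ) • E := by
  rw [← h28_push_mapDomain ψ hψ r' hdegG hdegG', ← h28_push_pull ψ hψ hdegG hdegG' hFIk]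
  congr 1
  ext Q'
  rw [hred _ (h28_pullback_eq_ord φ hφ D f hD) Q', h28_pullback_eq_ord ψ hψ E g hE]

open Classical in
/-- **[WD]** all places over `P` reduce to places with the same restriction. -/
theorem h28_wd (hdegF : ∀ v : Place L F, v.deg = 1) (hdegF' : ∀ w : Place L F', w.deg = 1)
    (hdegG : ∀ v : Place k G, v.deg = 1) (hdegG' : ∀ w : Place k G', w.deg = 1)
    (hFIL : FundamentalIdentityAlong L φ hφ) (hFIk : FundamentalIdentityAlong k ψ hψ)
    (hn : finrankAlong k ψ = finrankAlong L φ) (hpos : 0 < finrankAlong L φ)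
    (P : Place L F) (f : F) (g : G) (D : Divisor L F) (hD : ∀ v, D v = v.ord f)
    (hP : P.ord f = 1) (E : Divisor k G) (hE : ∀ Q, E Q = Q.ord g)
    (hred : ∀ D' : Divisor L F', (∀ w, D' w = w.ord (φ f)) →
      ∀ Q', Finsupp.mapDomain r' D' Q' = Q'.ord (ψ g))
    (τ : Place k G → Prop)
    (hτP : ∀ w : Place L F', w.restrictAlong φ hφ = P → τ (h28Rho ψ hψ r' w))
    (hτ' : ∀ w : Place L F', w.restrictAlong φ hφ ≠ P → (w.restrictAlong φ hφ).ord f ≠ 0 →
      ¬ τ (h28Rho ψ hψ r' w))
    (w₁ w₂ : Place L F') (h₁ : w₁.restrictAlong φ hφ = P) (h₂ : w₂.restrictAlong φ hφ = P) :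
    h28Rho ψ hψ r' w₁ = h28Rho ψ hψ r' w₂ := by
  have hkey := h28_rho_pullback_eq φ hφ ψ hψ r' hdegG hdegG' hFIk f g D hD E hE hred
  have hnpos : (0 : ℤ) < (finrankAlong L φ : ℤ) := by exact_mod_cast hpos
  set D₀ : Divisor L F := D - Finsupp.single P 1 with hD₀
  have hdec : D = Finsupp.single P 1 + D₀ := by rw [hD₀]; abel
  have hD₀P : D₀ P = 0 := by
    rw [hD₀, Finsupp.sub_apply, hD, hP, Finsupp.single_eq_same, sub_self]
  have hval : ∀ Q, τ Q →
      (∑ w ∈ Place.fiberAlong φ hφ P,
        if h28Rho ψ hψ r' w = Q then (w.ramificationIndexAlong φ : ℤ) else 0)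
        = (finrankAlong L φ : ℤ) * E Q := by
    intro Q hQ
    have h1 := DFunLike.congr_fun hkey Q
    rw [hdec, map_add, Finsupp.mapDomain_add, Finsupp.add_apply,
      h28_rho_pullback_single_apply] at h1
    have h2 : Finsupp.mapDomain (h28Rho ψ hψ r') (Divisor.pullbackAlong φ hφ D₀) Q = 0 := by
      by_contra hne
      obtain ⟨w, hw, hwQ⟩ := h28_exists_of_rho_pullback_ne_zero φ hφ ψ hψ r' D₀ Q hne
      have hwP : w.restrictAlong φ hφ ≠ P := by
        intro h
        rw [h] at hw
        exact hw hD₀P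
      have hwf : (w.restrictAlong φ hφ).ord f ≠ 0 := by
        rw [hD₀, Finsupp.sub_apply, Finsupp.single_eq_of_ne hwP, sub_zero, hD] at hw
        exact hw
      exact hτ' w hwP hwf (hwQ ▸ hQ)
    rw [h2, add_zero, Finsupp.smul_apply, smul_eq_mul, hn] at h1
    rw [← h1]
    refine Finset.sum_congr rfl fun w _ => ?_
    rw [one_mul]
  have hlow : ∀ w₀ : Place L F', w₀.restrictAlong φ hφ = P →
      (finrankAlong L φ : ℤ) ≤ ∑ w ∈ Place.fiberAlong φ hφ P,
        if h28Rho ψ hψ r' w = h28Rho ψ hψ r' w₀ then (w.ramificationIndexAlong φ : ℤ)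
        else 0 := by
    intro w₀ h₀
    have hv := hval _ (hτP w₀ h₀)
    have hge : (w₀.ramificationIndexAlong φ : ℤ) ≤ ∑ w ∈ Place.fiberAlong φ hφ P,
        if h28Rho ψ hψ r' w = h28Rho ψ hψ r' w₀ then (w.ramificationIndexAlong φ : ℤ)
        else 0 := by
      have hmem : w₀ ∈ Place.fiberAlong φ hφ P := Place.mem_fiberAlong.mpr h₀
      have hnn : ∀ w ∈ Place.fiberAlong φ hφ P, (0 : ℤ) ≤
          if h28Rho ψ hψ r' w = h28Rho ψ hψ r' w₀ then (w.ramificationIndexAlong φ : ℤ)
          else 0 := by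
        intro w _
        split_ifs
        · exact Int.natCast_nonneg _
        · exact le_refl _
      have := Finset.single_le_sum hnn hmem
      rwa [if_pos rfl] at this
    have hepos : (0 : ℤ) < (w₀.ramificationIndexAlong φ : ℤ) := by
      exact_mod_cast h28_ram_pos φ hφ w₀
    rw [hv] at hge ⊢
    have hE1 : 1 ≤ E (h28Rho ψ hψ r' w₀) := by
      by_contra hlt
      rw [not_le] at hlt
      have : E (h28Rho ψ hψ r' w₀) ≤ 0 := by omega
      have := mul_nonpos_of_nonneg_of_nonpos hnpos.le this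
      omega
    nlinarith
  by_contra hne
  have htot := h28_sum_ram φ hφ hdegF hdegF' hFIL P
  have hle : (∑ w ∈ Place.fiberAlong φ hφ P,
        if h28Rho ψ hψ r' w = h28Rho ψ hψ r' w₁ then (w.ramificationIndexAlong φ : ℤ)
        else 0) + (∑ w ∈ Place.fiberAlong φ hφ P,
        if h28Rho ψ hψ r' w = h28Rho ψ hψ r' w₂ then (w.ramificationIndexAlong φ : ℤ)
        else 0) ≤ (finrankAlong L φ : ℤ) := by
    rw [← htot, ← Finset.sum_add_distrib]
    refine Finset.sum_le_sum fun w _ => ?_
    have hnn : (0 : ℤ) ≤ (w.ramificationIndexAlong φ : ℤ) := Int.natCast_nonneg _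
    by_cases hc1 : h28Rho ψ hψ r' w = h28Rho ψ hψ r' w₁
    · have hc2 : ¬ h28Rho ψ hψ r' w = h28Rho ψ hψ r' w₂ := fun h => hne (hc1.symm.trans h)
      rw [if_pos hc1, if_neg hc2, add_zero]
    · rw [if_neg hc1, zero_add]
      split_ifs
      · exact le_refl _
      · exact hnn
  have hl1 := hlow w₁ h₁
  have hl2 := hlow w₂ h₂
  omega

/-- **[RED]** descent of the divisor compatibility, given well-definedness. -/
theorem h28_red (hdegF : ∀ v : Place L F, v.deg = 1) (hdegF' : ∀ w : Place L F', w.deg = 1)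
    (hdegG : ∀ v : Place k G, v.deg = 1) (hdegG' : ∀ w : Place k G', w.deg = 1)
    (hFIL : FundamentalIdentityAlong L φ hφ) (hFIk : FundamentalIdentityAlong k ψ hψ)
    (hn : finrankAlong k ψ = finrankAlong L φ) (hpos : 0 < finrankAlong L φ)
    (r : Place L F → Place k G)
    (hWD : ∀ w : Place L F', h28Rho ψ hψ r' w = r (w.restrictAlong φ hφ))
    (f : F) (g : G) (D : Divisor L F) (hD : ∀ v, D v = v.ord f)
    (E : Divisor k G) (hE : ∀ Q, E Q = Q.ord g)
    (hred : ∀ D' : Divisor L F', (∀ w, D' w = w.ord (φ f)) →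
      ∀ Q', Finsupp.mapDomain r' D' Q' = Q'.ord (ψ g)) (Q : Place k G) :
    Finsupp.mapDomain r D Q = Q.ord g := by
  have hkey := h28_rho_pullback_eq φ hφ ψ hψ r' hdegG hdegG' hFIk f g D hD E hE hred
  have hnpos : (0 : ℤ) < (finrankAlong L φ : ℤ) := by exact_mod_cast hpos
  have hlin : ∀ D₁ : Divisor L F,
      Finsupp.mapDomain (h28Rho ψ hψ r') (Divisor.pullbackAlong φ hφ D₁)
        = (finrankAlong L φ : ℤ) • Finsupp.mapDomain r D₁ := by
    intro D₁
    induction D₁ using Finsupp.induction with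
    | zero => simp
    | single_add v m D₁ _ _ ih =>
      rw [map_add, Finsupp.mapDomain_add, Finsupp.mapDomain_add, smul_add, ih]
      congr 1
      rw [h28_rho_pullback_single, Finsupp.mapDomain_single]
      have h1 : ∀ w ∈ Place.fiberAlong φ hφ v,
          Finsupp.single (h28Rho ψ hψ r' w) (m * (w.ramificationIndexAlong φ : ℤ))
            = Finsupp.single (r v) (m * (w.ramificationIndexAlong φ : ℤ)) := by
        intro w hw
        rw [hWD w, Place.mem_fiberAlong.mp hw]
      rw [Finset.sum_congr rfl h1, ← Finsupp.single_finsetSum, ← Finset.mul_sum,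
        h28_sum_ram φ hφ hdegF hdegF' hFIL v, Finsupp.smul_single, smul_eq_mul, mul_comm]
  rw [hlin D, hn] at hkey
  have h1 := DFunLike.congr_fun hkey Q
  rw [Finsupp.smul_apply, Finsupp.smul_apply, smul_eq_mul, smul_eq_mul] at h1
  rw [← hE]
  exact mul_left_cancel₀ hnpos.ne' h1

end TwoSides

end Fermat.Agent.S37x.Desc.H28
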